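/-
helper7, programme MW (S17), brick INST-2a (remainder), ABSTRACT part.

For `K` a field, `f : A ⟶ Spec K` and a functorial group law `G : RelativeGroupLaw K f`:

* `translate_over`, `comp_translate`, `translate_comp`, `isIso_translate`,
  `translate_genericPoint`, `ptMap_translate` : the translation `Cube82.translate G a`
  (`x ↦ a + x`) by a `K`-point `a` is an automorphism of `A` over `K` (inverse = translation by
  `-a`), fixes the generic point, and acts on `K`-points by `x ↦ a + x`;
* `negMap`, `negMap_over`, `comp_negMap`, `negMap_comp_negMap`, `isIso_negMap`,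
  `negMap_genericPoint`, `ptMap_negMap` : the inversion morphism `ι : A ⟶ A`;
* `bundle_of` : `Smooth` + `IsProper` + `GeometricallyConnected` ⟹ the Prelude's
  `AbelianSchemePropertyBundle`;  `isIntegral_of`, `universallyClosed_of`;
* `etale_schemeNsmul`, `isDominant_schemeNsmul`, `schemeNsmul_genericPoint`, `ptMap_schemeNsmul` :
  multiplication by `n` (`(n : K) ≠ 0`, `K` algebraically closed, `G` commutative) is dominant,
  fixes the generic point and acts on `K`-points by `x ↦ n • x`;
* section `Bridge` : the same statements transported along a map `β : X → A(K)` from an additive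
  commutative group which is additive for `G` -- exactly the shapes of the fields
  `transl_over`, `transl_dom`, `transl_pt`, `dbl_over`, `dbl_dom`, `dbl_pt` of `MW.GeomCore`.
-/
import Mathlib
import Fermat.Agent.Jac.QShell79Sep
import Fermat.Agent.AV.Cube82.Square
import Fermat.Agent.AV.Cnt14.Degree
import Fermat.Agent.AV.Var81.Wrap
import Fermat.Agent.AV.Basics88.NsmulEtale
import Fermat.Agent.AV.PicDiv86.Pullback
import Fermat.Agent.MW.HM73.Quad

set_option autoImplicit false
set_option linter.unusedSectionVars false
set_option linter.style.haveILetI false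

noncomputable section

universe u

open CategoryTheory CategoryTheory.Limits AlgebraicGeometry NeronModelInfra GoodReductionJacobian

namespace Fermat.Agent.MW.Inst7.JGroupAbs

open Fermat.Agent.AV.Cube82 Fermat.Agent.MW.HM73

variable {K : Type u} [Field K] {A : Scheme.{u}} {f : A ⟶ Spec (CommRingCat.of K)}
  (G : RelativeGroupLaw K f)

/-- The `K`-points of `A`. -/
abbrev KPt (f : A ⟶ Spec (CommRingCat.of K)) : Type u :=
  SchemeHomOver (𝟙 (Spec (CommRingCat.of K))) f

/-! ### Restriction of points -/

theorem comp_constPt {T : Scheme.{u}} (t : T ⟶ Spec (CommRingCat.of K)) (x : SchemeHomOver t f)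
    (a : KPt f) : schemeHomOverComp x.1 x.2 (constPt f a) = constPt t a := by
  apply Subtype.ext
  simp only [constPt, schemeHomOverComp_coe]
  rw [← Category.assoc, x.2]

theorem comp_idPoint {T : Scheme.{u}} (t : T ⟶ Spec (CommRingCat.of K)) (x : SchemeHomOver t f) :
    schemeHomOverComp x.1 x.2 (RelativeGroupLaw.idPoint (f := f)) = x :=
  Subtype.ext (by simp)

theorem constPt_id (a : KPt f) : constPt (𝟙 (Spec (CommRingCat.of K))) a = a :=
  Subtype.ext (by simp [constPt])

/-! ### Translations -/

theorem translate_over (a : KPt f) : translate G a ≫ f = f :=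
  (G.mul f (constPt f a) RelativeGroupLaw.idPoint).2

/-- `translate G a` acts on `T`-points by `x ↦ a + x`. -/
theorem comp_translate {T : Scheme.{u}} (t : T ⟶ Spec (CommRingCat.of K))
    (x : SchemeHomOver t f) (a : KPt f) :
    x.1 ≫ translate G a = (G.mul t (constPt t a) x).1 := by
  have h := G.mul_natural f t x.1 x.2 (constPt f a) RelativeGroupLaw.idPoint
  rw [comp_constPt, comp_idPoint] at h
  rw [← h]
  rfl

theorem translate_comp (a b : KPt f) :
    translate G a ≫ translate G b = translate G (G.mul (𝟙 _) b a) := by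
  have h := comp_translate G f ⟨translate G a, translate_over G a⟩ b
  rw [h]
  have e : (⟨translate G a, translate_over G a⟩ : SchemeHomOver f f) =
      G.mul f (constPt f a) RelativeGroupLaw.idPoint := rfl
  rw [e, ← G.mul_assoc, ← constPt_mul]
  rfl

theorem translate_comp_inv (a : KPt f) :
    translate G a ≫ translate G (G.inv (𝟙 _) a) = 𝟙 A := by
  rw [translate_comp, G.inv_mul_cancel, translate_one]

theorem translate_inv_comp (a : KPt f) :
    translate G (G.inv (𝟙 _) a) ≫ translate G a = 𝟙 A := by
  rw [translate_comp, G.mul_inv_cancel, translate_one]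

/-- Translation by a `K`-point as an automorphism of `A`. -/
def translateIso (a : KPt f) : A ≅ A where
  hom := translate G a
  inv := translate G (G.inv (𝟙 _) a)
  hom_inv_id := translate_comp_inv G a
  inv_hom_id := translate_inv_comp G a

theorem isIso_translate (a : KPt f) : IsIso (translate G a) :=
  (translateIso G a).isIso_hom

theorem isDominant_translate (a : KPt f) : IsDominant (translate G a) := by
  haveI := isIso_translate G a
  infer_instance

theorem translate_genericPoint [IsIntegral A] (a : KPt f) :
    translate G a (genericPoint A) = genericPoint A := by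
  haveI := isDominant_translate G a
  exact Fermat.Agent.AV.PicDiv86.map_genericPoint (translate G a)

/-- `translate G a` acts on `K`-points by `x ↦ a + x`. -/
theorem ptMap_translate [IsIntegral A] (a : KPt f) (x : Pt f) :
    ptMap f (translate G a) (translate_over G a) x = G.mul (𝟙 _) a x := by
  apply Subtype.ext
  show x.1 ≫ translate G a = _
  rw [comp_translate G (𝟙 _) x a, constPt_id]

/-! ### Inversion -/

/-- The inversion morphism `ι : A ⟶ A`. -/
def negMap : A ⟶ A := (G.inv f RelativeGroupLaw.idPoint).1

theorem negMap_over : negMap G ≫ f = f := (G.inv f RelativeGroupLaw.idPoint).2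

/-- `negMap G` acts on `T`-points by `x ↦ -x`. -/
theorem comp_negMap {T : Scheme.{u}} (t : T ⟶ Spec (CommRingCat.of K))
    (x : SchemeHomOver t f) : x.1 ≫ negMap G = (G.inv t x).1 := by
  have h := Fermat.Agent.Jac.QShell79Sep.inv_natural G f t x.1 x.2 RelativeGroupLaw.idPoint
  rw [comp_idPoint] at h
  rw [← h]
  rfl

theorem negMap_comp_negMap : negMap G ≫ negMap G = 𝟙 A := by
  have h := comp_negMap G f ⟨negMap G, negMap_over G⟩
  rw [h]
  letI := G.pointGroup f
  show ((RelativeGroupLaw.idPoint (f := f))⁻¹⁻¹).1 = 𝟙 A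
  rw [inv_inv]

theorem isIso_negMap : IsIso (negMap G) :=
  ⟨⟨negMap G, negMap_comp_negMap G, negMap_comp_negMap G⟩⟩

theorem negMap_genericPoint [IsIntegral A] : negMap G (genericPoint A) = genericPoint A := by
  haveI := isIso_negMap G
  exact Fermat.Agent.AV.PicDiv86.map_genericPoint (negMap G)

theorem ptMap_negMap [IsIntegral A] (x : Pt f) : ptMap f (negMap G) (negMap_over G) x = G.inv (𝟙 _) x := by
  apply Subtype.ext
  show x.1 ≫ negMap G = _
  rw [comp_negMap G (𝟙 _) x]

/-- Translation and inversion: `ι ∘ t_a = t_{-a} ∘ ι`. -/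
theorem translate_comp_negMap (hc : G.IsCommutative) (a : KPt f) :
    translate G a ≫ negMap G = negMap G ≫ translate G (G.inv (𝟙 _) a) := by
  have h1 := comp_negMap G f ⟨translate G a, translate_over G a⟩
  have h2 := comp_translate G f ⟨negMap G, negMap_over G⟩ (G.inv (𝟙 _) a)
  rw [h1, h2]
  have e1 : (⟨translate G a, translate_over G a⟩ : SchemeHomOver f f) =
      G.mul f (constPt f a) RelativeGroupLaw.idPoint := rfl
  have e2 : (⟨negMap G, negMap_over G⟩ : SchemeHomOver f f) =
      G.inv f RelativeGroupLaw.idPoint := rfl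
  have e3 : constPt f (G.inv (𝟙 _) a) = G.inv f (constPt f a) :=
    Fermat.Agent.Jac.QShell79Sep.inv_natural G _ _ _ _ _
  rw [e1, e2, e3]
  letI := G.pointGroup f
  show ((constPt f a * RelativeGroupLaw.idPoint)⁻¹).1 =
    ((constPt f a)⁻¹ * (RelativeGroupLaw.idPoint (f := f))⁻¹).1
  rw [mul_inv_rev]
  exact congrArg Subtype.val (hc f _ _)

/-! ### The abelian-variety bundle -/

include G in
theorem bundle_of [Smooth f] [IsProper f] [GeometricallyConnected f] :
    AbelianSchemePropertyBundle K f where
  smooth := inferInstance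
  proper := inferInstance
  connectedFibres := fun s => f.isConnected_preimage_singleton s
  hasGroupLaw := ⟨G⟩

theorem isIntegral_of (hA : AbelianSchemePropertyBundle K f) : IsIntegral A :=
  Fermat.Agent.AV.Var81.isIntegral_of_bundle f hA

theorem universallyClosed_of (hA : AbelianSchemePropertyBundle K f) : UniversallyClosed f := by
  haveI := hA.proper
  infer_instance

/-! ### Multiplication by `n` -/

theorem schemeNsmul_over (n : ℕ) : G.schemeNsmul n ≫ f = f := G.schemeNsmul_over n

/-- `[n]` acts on `K`-points by `x ↦ n • x`. -/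
theorem ptMap_schemeNsmul [IsIntegral A] (n : ℕ) (x : Pt f) :
    ptMap f (G.schemeNsmul n) (G.schemeNsmul_over n) x = G.nsmul (𝟙 _) n x := by
  apply Subtype.ext
  show x.1 ≫ G.schemeNsmul n = _
  rw [Fermat.Agent.AV.Cnt14.nsmul_coe]

variable [IsAlgClosed K]

theorem etale_schemeNsmul (hc : G.IsCommutative) (hA : AbelianSchemePropertyBundle K f)
    (n : ℕ) (hn : (n : K) ≠ 0) : Etale (G.schemeNsmul n) :=
  Fermat.Agent.AV.Basics88.NsmulEtale.etale_schemeNsmul_of_bundle G hc hA n hn

theorem surjective_schemeNsmul (hc : G.IsCommutative) (hA : AbelianSchemePropertyBundle K f)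
    (n : ℕ) (hn : (n : K) ≠ 0) : Surjective (G.schemeNsmul n) := by
  haveI := etale_schemeNsmul G hc hA n hn
  exact Fermat.Agent.AV.Cnt14.surjective_schemeNsmul G hA n

theorem isDominant_schemeNsmul (hc : G.IsCommutative) (hA : AbelianSchemePropertyBundle K f)
    (n : ℕ) (hn : (n : K) ≠ 0) : IsDominant (G.schemeNsmul n) := by
  haveI := surjective_schemeNsmul G hc hA n hn
  infer_instance

theorem schemeNsmul_genericPoint [IsIntegral A] (hc : G.IsCommutative)
    (hA : AbelianSchemePropertyBundle K f) (n : ℕ) (hn : (n : K) ≠ 0) :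
    G.schemeNsmul n (genericPoint A) = genericPoint A := by
  haveI := isDominant_schemeNsmul G hc hA n hn
  exact Fermat.Agent.AV.PicDiv86.map_genericPoint (G.schemeNsmul n)

/-! ### Transport along a bridge `β : X → A(K)` -/

section Bridge

variable [IsIntegral A] {X : Type*} [AddCommGroup X] (β : X → Pt f)

/-- `transl_pt` of `MW.GeomCore`. -/
theorem transl_pt (hc : G.IsCommutative)
    (hadd : ∀ x a, β (x + a) = G.mul (𝟙 _) (β x) (β a)) (a x : X) :
    ptMap f (translate G (β a)) (translate_over G (β a)) (β x) = β (x + a) := by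
  rw [ptMap_translate, hadd, hc (𝟙 _)]

/-- `dbl_pt` of `MW.GeomCore` (for any multiple). -/
theorem nsmul_pt (hsmul : ∀ (n : ℕ) x, β (n • x) = G.nsmul (𝟙 _) n (β x)) (n : ℕ) (x : X) :
    ptMap f (G.schemeNsmul n) (G.schemeNsmul_over n) (β x) = β (n • x) := by
  rw [ptMap_schemeNsmul, hsmul]

/-- The inversion on points. -/
theorem neg_pt (hneg : ∀ x, β (-x) = G.inv (𝟙 _) (β x)) (x : X) :
    ptMap f (negMap G) (negMap_over G) (β x) = β (-x) := by
  rw [ptMap_negMap, hneg]

/-- Translation by `-a` is the inverse of translation by `a`. -/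
theorem transl_neg_comp (hneg : ∀ x, β (-x) = G.inv (𝟙 _) (β x)) (a : X) :
    translate G (β (-a)) ≫ translate G (β a) = 𝟙 A := by
  rw [hneg]; exact translate_inv_comp G (β a)

theorem transl_comp_neg (hneg : ∀ x, β (-x) = G.inv (𝟙 _) (β x)) (a : X) :
    translate G (β a) ≫ translate G (β (-a)) = 𝟙 A := by
  rw [hneg]; exact translate_comp_inv G (β a)

end Bridge

end Fermat.Agent.MW.Inst7.JGroupAbs

end
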