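/-
helper7, programme MW (S17), brick INST-2a (remainder), CONCRETE part: **the J-side group data of
`MW.GeomCore`** for the Jacobian `D'` of a model curve `M : F1Model15.Model K F`
(`K` algebraically closed), with `h : RepresentsRelSubPic M.c M.ε (cut41 D) D'`, the group law
`lawJ M h = SchemeSide.law h` and helper84's bridge `Iso.β M h : Pic0 K F → J(K)`.

Hypotheses on `D'` (all delivered by `PicBridge84.Jacobian.exists_jacobian`): `Smooth D'.toBase`,
`IsProper D'.toBase`, `GeometricallyConnected D'.toBase`.

* `bundle`, `isIntegral`, `univClosed`, `locFinType`, `β_surj`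
                                  (fields `integral`, `univClosed`, `locFinType`, `β_surj`);
* `transl`, `transl_over`, `transl_dom`, `transl_pt`      (translations `x ↦ x + a`), plus
  `transl_comp_neg`, `transl_neg_comp`, `isIso_transl`;
* `mulBy n`, `mulBy_over`, `mulBy_dom`, `mulBy_pt`        (multiplication by `n`, `(n : K) ≠ 0`),
  and `dbl := mulBy 2`, `dbl_over`, `dbl_dom`, `dbl_pt`   (`(2 : K) ≠ 0`, e.g. `CharZero K`);
* `neg`, `neg_over`, `neg_comp_neg`, `neg_dom`, `neg_pt`  (the inversion `ι`, for INST-2b),
  `transl_comp_neg_eq` : `t_a ≫ ι = ι ≫ t_{-a}`.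
-/
import Mathlib
import Fermat.Agent.AV.PicBridge84.Iso
import Fermat.Agent.MW.Inst7.JGroupAbs

set_option autoImplicit false
set_option linter.unusedSectionVars false
set_option linter.style.haveILetI false

noncomputable section

universe u

open CategoryTheory CategoryTheory.Limits AlgebraicGeometry AlgebraicGeometry.RelPicard
  NeronModelInfra GoodReductionJacobian TensorProduct AlgebraicCurve

namespace Fermat.Agent.MW.Inst7.JGroup

open scoped Fermat.Agent.Jac.BaseChange75
open Fermat.Agent.Jac Fermat.Agent.Jac.FinalWiring41 Fermat.Agent.AV.F1Model15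
  Fermat.Agent.AV.PicBridge84.SchemeSide Fermat.Agent.AV.PicBridge84.Iso
  Fermat.Agent.AV.Cube82 Fermat.Agent.MW.HM73 Fermat.Agent.MW.Inst7.JGroupAbs

variable {K F : Type u} [Field K] [Field F] [Algebra K F] [IsAlgClosed K] [IsCurveOver K F]
  (M : Model K F) {D : AffineDictionary M.cc} {D' : RelativePic0Designation K M.c}
  (h : haveI := M.isIntegral; RepresentsRelSubPic M.c M.ε (cut41 D) D')

/-- The group law of the Jacobian. -/
def lawJ : RelativeGroupLaw K D'.toBase :=
  haveI := M.isIntegral
  law h

theorem lawJ_isCommutative : (lawJ M h).IsCommutative :=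
  haveI := M.isIntegral
  isCommutative_law h

theorem β_add' (x a : Pic0 K F) :
    β M h (x + a) = (lawJ M h).mul (𝟙 _) (β M h x) (β M h a) := β_add M h x a

theorem β_nsmul' (n : ℕ) (x : Pic0 K F) :
    β M h (n • x) = (lawJ M h).nsmul (𝟙 _) n (β M h x) := β_nsmul M h n x

theorem β_neg' (x : Pic0 K F) :
    β M h (-x) = (lawJ M h).inv (𝟙 _) (β M h x) := β_neg M h x

variable [Smooth D'.toBase] [IsProper D'.toBase] [GeometricallyConnected D'.toBase]

include h in
/-- The Jacobian is an abelian variety in the sense of the Prelude. -/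
theorem bundle : AbelianSchemePropertyBundle K D'.toBase := bundle_of (lawJ M h)

include h in
/-- Field `integral` of `MW.GeomCore`. -/
theorem isIntegral : IsIntegral D'.P := isIntegral_of (bundle M h)

include h in
/-- Field `univClosed` of `MW.GeomCore`. -/
theorem univClosed : UniversallyClosed D'.toBase := inferInstance

include h in
/-- Field `locFinType` of `MW.GeomCore`. -/
theorem locFinType : LocallyOfFiniteType D'.toBase := inferInstance

/-- Field `β_surj` of `MW.GeomCore`. -/
theorem β_surj : Function.Surjective (β M h) := β_surjective M h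

theorem β_inj : Function.Injective (β M h) := β_injective M h

/-! ### Translations -/

/-- Translation by the point `β a` : `x ↦ x + a`. -/
def transl (a : Pic0 K F) : D'.P ⟶ D'.P := translate (lawJ M h) (β M h a)

theorem transl_over (a : Pic0 K F) : transl M h a ≫ D'.toBase = D'.toBase :=
  translate_over (lawJ M h) (β M h a)

theorem transl_comp_neg (a : Pic0 K F) : transl M h a ≫ transl M h (-a) = 𝟙 D'.P := by
  unfold transl
  rw [β_neg']
  exact translate_comp_inv (lawJ M h) (β M h a)

theorem transl_neg_comp (a : Pic0 K F) : transl M h (-a) ≫ transl M h a = 𝟙 D'.P := by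
  unfold transl
  rw [β_neg']
  exact translate_inv_comp (lawJ M h) (β M h a)

/-- Field `transl_iso` of `MW.GeomCore`. -/
theorem isIso_transl (a : Pic0 K F) : IsIso (transl M h a) :=
  ⟨⟨transl M h (-a), transl_comp_neg M h a, transl_neg_comp M h a⟩⟩

theorem transl_zero : transl M h 0 = 𝟙 D'.P := by
  haveI := M.isIntegral
  unfold transl
  rw [β_zero]
  exact translate_one (law h)

theorem transl_comp (a b : Pic0 K F) : transl M h a ≫ transl M h b = transl M h (a + b) := by
  unfold transl
  rw [translate_comp, β_add', (lawJ_isCommutative M h) (𝟙 _)]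

/-- Field `transl_dom` of `MW.GeomCore`. -/
theorem transl_dom (a : Pic0 K F) :
    haveI := isIntegral M h
    transl M h a (genericPoint D'.P) = genericPoint D'.P := by
  haveI := isIntegral M h
  exact translate_genericPoint (lawJ M h) (β M h a)

/-- Field `transl_pt` of `MW.GeomCore`. -/
theorem transl_pt (a x : Pic0 K F) :
    haveI := isIntegral M h
    ptMap D'.toBase (transl M h a) (transl_over M h a) (β M h x) = β M h (x + a) := by
  haveI := isIntegral M h
  exact JGroupAbs.transl_pt (lawJ M h) (β M h) (lawJ_isCommutative M h) (β_add' M h) a x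

/-! ### Multiplication by `n` -/

/-- Multiplication by `n` on the Jacobian. -/
def mulBy (n : ℕ) : D'.P ⟶ D'.P := (lawJ M h).schemeNsmul n

theorem mulBy_over (n : ℕ) : mulBy M h n ≫ D'.toBase = D'.toBase :=
  (lawJ M h).schemeNsmul_over n

theorem mulBy_etale (n : ℕ) (hn : (n : K) ≠ 0) : Etale (mulBy M h n) :=
  etale_schemeNsmul (lawJ M h) (lawJ_isCommutative M h) (bundle M h) n hn

theorem mulBy_surjective (n : ℕ) (hn : (n : K) ≠ 0) : Surjective (mulBy M h n) :=
  surjective_schemeNsmul (lawJ M h) (lawJ_isCommutative M h) (bundle M h) n hn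

theorem mulBy_dominant (n : ℕ) (hn : (n : K) ≠ 0) : IsDominant (mulBy M h n) :=
  isDominant_schemeNsmul (lawJ M h) (lawJ_isCommutative M h) (bundle M h) n hn

theorem mulBy_dom (n : ℕ) (hn : (n : K) ≠ 0) :
    haveI := isIntegral M h
    mulBy M h n (genericPoint D'.P) = genericPoint D'.P := by
  haveI := isIntegral M h
  exact schemeNsmul_genericPoint (lawJ M h) (lawJ_isCommutative M h) (bundle M h) n hn

theorem mulBy_pt (n : ℕ) (x : Pic0 K F) :
    haveI := isIntegral M h
    ptMap D'.toBase (mulBy M h n) (mulBy_over M h n) (β M h x) = β M h (n • x) := by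
  haveI := isIntegral M h
  exact JGroupAbs.nsmul_pt (lawJ M h) (β M h) (β_nsmul' M h) n x

/-- Doubling. -/
def dbl : D'.P ⟶ D'.P := mulBy M h 2

/-- Field `dbl_over` of `MW.GeomCore`. -/
theorem dbl_over : dbl M h ≫ D'.toBase = D'.toBase := mulBy_over M h 2

/-- Field `dbl_dom` of `MW.GeomCore`. -/
theorem dbl_dom (h2 : (2 : K) ≠ 0) :
    haveI := isIntegral M h
    dbl M h (genericPoint D'.P) = genericPoint D'.P :=
  mulBy_dom M h 2 (by exact_mod_cast h2)

/-- Field `dbl_pt` of `MW.GeomCore`. -/
theorem dbl_pt (x : Pic0 K F) :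
    haveI := isIntegral M h
    ptMap D'.toBase (dbl M h) (dbl_over M h) (β M h x) = β M h (2 • x) :=
  mulBy_pt M h 2 x

/-! ### Inversion -/

/-- The inversion `ι` of the Jacobian. -/
def neg : D'.P ⟶ D'.P := negMap (lawJ M h)

theorem neg_over : neg M h ≫ D'.toBase = D'.toBase := negMap_over (lawJ M h)

theorem neg_comp_neg : neg M h ≫ neg M h = 𝟙 D'.P := negMap_comp_negMap (lawJ M h)

theorem isIso_neg : IsIso (neg M h) := isIso_negMap (lawJ M h)

theorem neg_dom :
    haveI := isIntegral M h
    neg M h (genericPoint D'.P) = genericPoint D'.P := by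
  haveI := isIntegral M h
  exact negMap_genericPoint (lawJ M h)

theorem neg_pt (x : Pic0 K F) :
    haveI := isIntegral M h
    ptMap D'.toBase (neg M h) (neg_over M h) (β M h x) = β M h (-x) := by
  haveI := isIntegral M h
  exact JGroupAbs.neg_pt (lawJ M h) (β M h) (β_neg' M h) x

/-- `t_a ≫ ι = ι ≫ t_{-a}`. -/
theorem transl_comp_neg_eq (a : Pic0 K F) :
    transl M h a ≫ neg M h = neg M h ≫ transl M h (-a) := by
  unfold transl neg
  rw [β_neg']
  exact translate_comp_negMap (lawJ M h) (lawJ_isCommutative M h) (β M h a)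

end Fermat.Agent.MW.Inst7.JGroup

end
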